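import Fermat.Agent.S23.LevelOne
import Fermat.Agent.S28.H25.Theta

/-!
# S36 / cell REG, leaf HASSE (helper559)

For a prime `q ≥ 5` write `q - 1 = 12 a + 4 δ + 6 ε`, `δ = [q ≡ 2 mod 3]`, `ε = [q ≡ 3 mod 4]`.
Then over every field `k` of characteristic `q`, in `k((t))`,

  `Δ^{-(q-1)} = j^{4δ} (j - 1728)^{6ε} f(j)^{12}`   for some `f ∈ k[X]`

(`hasse_gen`; this is definitionally `Fermat.Agent.S36.Reg.HasseStatementField q k`, and for
`k = ZMod q` it is `HasseStatement q` of `S36/Reg/Spec.lean`; adapter: `H559/HasseSpec.lean`).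

Proof.
* `exists_bernoulli_mul_eq`: von Staudt–Clausen gives `B_{q-1} = A / (q M)`, `q ∤ A`; hence
  `A · E_{q-1}` has an integral `q`-expansion which is `≡ A mod q` (`eisInt`).
* `span_monoSet_le`, `tri_integral`: the `q`-expansion of a level-one form of weight
  `12 a + 4 δ + 6 ε` is a combination of the triangular integral series
  `bas δ ε a i = E₄^(δ + 3 (a - i)) E₆^ε Δ^i`, with integral coefficients if the expansion is
  integral.
* reduce mod `q`, divide by `E₄^δ E₆^ε Δ^a`, take 12-th powers, use `E₄³ = j Δ`,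
  `E₆² = (j - 1728) Δ` (`hasse_algebra`).
-/

set_option autoImplicit false

namespace Fermat.Agent.S36.Reg.H559

section Bern

open Finset

/-- **von Staudt–Clausen at `k = q - 1`**: `B_{q-1} · (q M) = A` with `q ∤ A`. -/
theorem exists_bernoulli_mul_eq (q : ℕ) (hq : q.Prime) (hq2 : q ≠ 2) :
    ∃ A M : ℤ, ¬ (q : ℤ) ∣ A ∧ bernoulli (q - 1) * ((q : ℚ) * (M : ℚ)) = (A : ℚ) := by
  classical
  obtain ⟨k, hk⟩ : ∃ k, q - 1 = 2 * k := by
    obtain ⟨m, hm⟩ := hq.odd_of_ne_two hq2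
    exact ⟨m, by omega⟩
  have hq1 : 1 ≤ q := hq.one_lt.le
  obtain ⟨n, hn⟩ := Bernoulli.vonStaudt_clausen k
  set P : Finset ℕ := (range (2 * k + 2)).filter (fun p => p.Prime ∧ (p - 1) ∣ 2 * k) with hP
  have hqP : q ∈ P := by
    rw [hP, mem_filter, mem_range]
    exact ⟨by omega, hq, by rw [hk]⟩
  set S : Finset ℕ := P.erase q with hS
  have hSprime : ∀ p ∈ S, p.Prime := fun p hp => ((mem_filter.mp (mem_of_mem_erase hp)).2).1
  have hSne : ∀ p ∈ S, p ≠ q := fun p hp => ne_of_mem_erase hp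
  set M : ℕ := ∏ p ∈ S, p with hM
  set W : ℕ := ∑ p ∈ S, ∏ p' ∈ S.erase p, p' with hW
  -- `M * ∑_{p ∈ S} 1/p = W`
  have hMW : (M : ℚ) * ∑ p ∈ S, (1 : ℚ) / p = (W : ℚ) := by
    rw [Finset.mul_sum, hW, Nat.cast_sum]
    refine Finset.sum_congr rfl fun p hp => ?_
    have hp0 : (p : ℚ) ≠ 0 := Nat.cast_ne_zero.mpr (hSprime p hp).ne_zero
    have h1 : M = p * ∏ p' ∈ S.erase p, p' := by
      rw [hM]; exact (Finset.mul_prod_erase S (fun x => x) hp).symm
    rw [h1, Nat.cast_mul]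
    field_simp
  have hsum : ∑ p ∈ P, (1 : ℚ) / p = 1 / q + ∑ p ∈ S, (1 : ℚ) / p := by
    rw [hS, Finset.add_sum_erase P (fun p => (1 : ℚ) / p) hqP]
  have hq0 : (q : ℚ) ≠ 0 := Nat.cast_ne_zero.mpr hq.ne_zero
  refine ⟨n * q * M - M - q * W, M, ?_, ?_⟩
  · -- `q ∤ A`
    intro hdvd
    have h2 : (q : ℤ) ∣ (M : ℤ) := by
      have h3 : (q : ℤ) ∣ n * q * M - q * W := ⟨n * M - W, by ring⟩
      have h4 : (M : ℤ) = (n * q * M - q * W) - (n * q * M - M - q * W) := by ring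
      rw [h4]
      exact dvd_sub h3 hdvd
    have h5 : q ∣ M := by exact_mod_cast h2
    rw [hM] at h5
    obtain ⟨p, hp, hqp⟩ := (hq.prime.dvd_finsetProd_iff _).mp h5
    exact hSne p hp ((Nat.prime_dvd_prime_iff_eq hq (hSprime p hp)).mp hqp).symm
  · have hB : bernoulli (q - 1) = (n : ℚ) - (1 / q + ∑ p ∈ S, (1 : ℚ) / p) := by
      rw [hk, ← hsum, hn]
      ring
    rw [hB]
    push_cast
    have : ((n : ℚ) - (1 / q + ∑ p ∈ S, (1 : ℚ) / p)) * ((q : ℚ) * (M : ℚ)) =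
        n * q * M - (q : ℚ) * (1 / q) * M - q * ((M : ℚ) * ∑ p ∈ S, (1 : ℚ) / p) := by ring
    rw [this, hMW, mul_one_div_cancel hq0, one_mul]

end Bern

open ModularForm ModularFormClass EisensteinSeries UpperHalfPlane MatrixGroups ModularCurve
open Fermat.Agent.S23.LevelOne

noncomputable section

/-- The formal discriminant `Δ = q ∏ (1 - qⁿ)²⁴` in `ℤ⟦q⟧`. -/
def dF : PowerSeries ℤ := PowerSeries.X * dedekindEtaUnit

theorem map_int_injective : Function.Injective (PowerSeries.map (Int.castRingHom ℂ)) := by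
  intro f g hfg
  ext n
  have := congrArg (PowerSeries.coeff n) hfg
  simpa using this

theorem ofNat_mul_eq_smul (Y : PowerSeries ℂ) : (1728 : PowerSeries ℂ) * Y = (1728 : ℂ) • Y := by
  ext n
  have h : (1728 : PowerSeries ℂ) = PowerSeries.C (1728 : ℂ) :=
    (map_ofNat (PowerSeries.C (R := ℂ)) 1728).symm
  rw [h, PowerSeries.coeff_C_mul, PowerSeries.coeff_smul, smul_eq_mul]

/-- `E₄³ - E₆² = 1728 Δ` in `ℤ⟦q⟧`. -/
theorem qE4_cube_sub_qE6_sq : qE4 ^ 3 - qE6 ^ 2 = 1728 * dF := by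
  apply map_int_injective
  have h1 := qExpansion_discriminant_eq
  have h2 : qExpansion 1 ModularForm.discriminant =
      PowerSeries.X * dedekindEtaUnit.map (Int.castRingHom ℂ) := Fermat.Agent.S28.H25.deltaBridge
  rw [h2] at h1
  simp only [qMono, pow_zero, mul_one, one_mul] at h1
  rw [map_sub, map_mul, dF, map_mul, PowerSeries.map_X, h1, map_ofNat, ofNat_mul_eq_smul,
    smul_smul]
  norm_num

theorem qE6_sq : qE6 ^ 2 = qE4 ^ 3 - 1728 * dF := by
  rw [← qE4_cube_sub_qE6_sq]; ring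

theorem qE4_eq_eisenstein4 : qE4 = eisenstein4 := by
  ext m
  simp only [qE4, eisenstein4, PowerSeries.coeff_mk]
  split_ifs with h
  · rfl
  · rw [ArithmeticFunction.sigma_apply]
    push_cast
    rfl

/-- The triangular integral basis of weight `12 a + 4 δ + 6 ε`. -/
def bas (δ ε a i : ℕ) : PowerSeries ℤ := qE4 ^ (δ + 3 * (a - i)) * qE6 ^ ε * dF ^ i

/-- The same over `ℂ`. -/
def basC (δ ε a i : ℕ) : PowerSeries ℂ := (bas δ ε a i).map (Int.castRingHom ℂ)

/-- The `ℂ`-span of the basis. -/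
def spanBas (δ ε a : ℕ) : Submodule ℂ (PowerSeries ℂ) :=
  Submodule.span ℂ (Set.range fun i : Fin (a + 1) => basC δ ε a i)

theorem dF_mul_mem {δ ε a : ℕ} {P : PowerSeries ℂ} (hP : P ∈ spanBas δ ε a) :
    dF.map (Int.castRingHom ℂ) * P ∈ spanBas δ ε (a + 1) := by
  induction hP using Submodule.span_induction with
  | mem x hx =>
    obtain ⟨i, rfl⟩ := hx
    refine Submodule.subset_span ⟨⟨i.1 + 1, by omega⟩, ?_⟩
    show basC δ ε (a + 1) (i.1 + 1) = dF.map (Int.castRingHom ℂ) * basC δ ε a i.1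
    simp only [basC, bas]
    rw [← map_mul]
    congr 1
    have : a + 1 - (i.1 + 1) = a - i.1 := by omega
    rw [this]
    ring
  | zero => simp
  | add x y _ _ hx hy => rw [mul_add]; exact Submodule.add_mem _ hx hy
  | smul c x _ hx => rw [mul_smul_comm]; exact Submodule.smul_mem _ _ hx

theorem qE4_cube_mul_mem {δ ε a : ℕ} {P : PowerSeries ℂ} (hP : P ∈ spanBas δ ε a) :
    (qE4 ^ 3).map (Int.castRingHom ℂ) * P ∈ spanBas δ ε (a + 1) := by
  induction hP using Submodule.span_induction with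
  | mem x hx =>
    obtain ⟨i, rfl⟩ := hx
    refine Submodule.subset_span ⟨⟨i.1, by omega⟩, ?_⟩
    show basC δ ε (a + 1) i.1 = (qE4 ^ 3).map (Int.castRingHom ℂ) * basC δ ε a i.1
    simp only [basC, bas]
    rw [← map_mul]
    congr 1
    have : a + 1 - i.1 = a - i.1 + 1 := by have := i.2; omega
    rw [this]
    ring
  | zero => simp
  | add x y _ _ hx hy => rw [mul_add]; exact Submodule.add_mem _ hx hy
  | smul c x _ hx => rw [mul_smul_comm]; exact Submodule.smul_mem _ _ hx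

theorem mono_mem (δ ε x' : ℕ) : ∀ y' : ℕ,
    (qE4 ^ (δ + 3 * x') * qE6 ^ (ε + 2 * y')).map (Int.castRingHom ℂ) ∈ spanBas δ ε (x' + y')
  | 0 => by
    refine Submodule.subset_span ⟨⟨0, by omega⟩, ?_⟩
    show basC δ ε (x' + 0) 0 = _
    simp only [basC, bas]
    congr 1
    simp
  | y' + 1 => by
    have ih := mono_mem δ ε x' y'
    have h1 := qE4_cube_mul_mem ih
    have h2 := dF_mul_mem ih
    have h3 : qE4 ^ (δ + 3 * x') * qE6 ^ (ε + 2 * (y' + 1)) =
        qE4 ^ 3 * (qE4 ^ (δ + 3 * x') * qE6 ^ (ε + 2 * y')) -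
          1728 * (dF * (qE4 ^ (δ + 3 * x') * qE6 ^ (ε + 2 * y'))) := by
      have h4 : qE4 ^ (δ + 3 * x') * qE6 ^ (ε + 2 * (y' + 1)) =
          (qE4 ^ (δ + 3 * x') * qE6 ^ (ε + 2 * y')) * qE6 ^ 2 := by ring
      rw [h4, qE6_sq]
      ring
    rw [h3]
    generalize qE4 ^ (δ + 3 * x') * qE6 ^ (ε + 2 * y') = T at h1 h2 ⊢
    rw [map_sub, map_mul, map_mul, map_mul, map_ofNat, ofNat_mul_eq_smul]
    exact Submodule.sub_mem _ h1 (Submodule.smul_mem _ _ h2)

/-- Every monomial `E₄^x E₆^y` of weight `12 a + 4 δ + 6 ε` lies in the span of the basis. -/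
theorem span_monoSet_le (δ ε a : ℕ) (hδ : δ ≤ 1) (hε : ε ≤ 1) (k : ℕ)
    (hk : k = 12 * a + 4 * δ + 6 * ε) :
    Submodule.span ℂ (monoSet (k : ℤ)) ≤ spanBas δ ε a := by
  refine Submodule.span_le.mpr ?_
  rintro _ ⟨x, y, hxy, rfl⟩
  have hxy' : 4 * x + 6 * y = 12 * a + 4 * δ + 6 * ε := by
    subst hk
    exact_mod_cast hxy
  obtain ⟨x', y', hx, hy, ha⟩ : ∃ x' y', x = δ + 3 * x' ∧ y = ε + 2 * y' ∧ x' + y' = a :=
    ⟨(x - δ) / 3, (y - ε) / 2, by omega, by omega, by omega⟩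
  subst hx hy ha
  exact mono_mem δ ε x' y'

theorem bas_eq (δ ε a i : ℕ) : bas δ ε a i =
    PowerSeries.X ^ i * (qE4 ^ (δ + 3 * (a - i)) * qE6 ^ ε * dedekindEtaUnit ^ i) := by
  simp only [bas, dF]
  ring

theorem coeff_bas_of_lt (δ ε a : ℕ) {i j : ℕ} (h : j < i) :
    PowerSeries.coeff j (bas δ ε a i) = 0 := by
  rw [bas_eq, PowerSeries.coeff_X_pow_mul', if_neg (by omega)]

theorem coeff_bas_self (δ ε a i : ℕ) : PowerSeries.coeff i (bas δ ε a i) = 1 := by
  rw [bas_eq, PowerSeries.coeff_X_pow_mul', if_pos le_rfl, Nat.sub_self,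
    PowerSeries.coeff_zero_eq_constantCoeff_apply]
  simp [constantCoeff_qE4, constantCoeff_qE6, constantCoeff_dedekindEtaUnit]

/-- **Triangular integrality.** -/
theorem tri_integral (B : ℕ → PowerSeries ℤ)
    (hB0 : ∀ i j, j < i → PowerSeries.coeff j (B i) = 0)
    (hB1 : ∀ i, PowerSeries.coeff i (B i) = 1) :
    ∀ (n s : ℕ) (P : PowerSeries ℤ) (z : ℕ → ℂ),
      P.map (Int.castRingHom ℂ) =
        ∑ i ∈ Finset.Ico s (s + n), z i • (B i).map (Int.castRingHom ℂ) →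
      ∃ c : ℕ → ℤ, P = ∑ i ∈ Finset.Ico s (s + n), c i • B i := by
  intro n
  induction n with
  | zero =>
    intro s P z h
    refine ⟨0, ?_⟩
    simp only [add_zero, Finset.Ico_self, Finset.sum_empty] at h ⊢
    exact map_int_injective (by rw [h, map_zero])
  | succ n ih =>
    intro s P z h
    have hIco : Finset.Ico s (s + (n + 1)) = insert s (Finset.Ico (s + 1) (s + 1 + n)) := by
      ext i
      simp only [Finset.mem_Ico, Finset.mem_insert]
      omega
    have hs : s ∉ Finset.Ico (s + 1) (s + 1 + n) := by simp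
    rw [hIco, Finset.sum_insert hs] at h
    have hz : z s = ((PowerSeries.coeff s P : ℤ) : ℂ) := by
      have h' := congrArg (PowerSeries.coeff s) h
      rw [PowerSeries.coeff_map, map_add, PowerSeries.coeff_smul, PowerSeries.coeff_map, hB1,
        map_sum, Finset.sum_eq_zero, add_zero] at h'
      · simpa using h'.symm
      · intro i hi
        have hi' : s < i := by
          simp only [Finset.mem_Ico] at hi
          omega
        rw [PowerSeries.coeff_smul, PowerSeries.coeff_map, hB0 i s hi']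
        simp
    obtain ⟨c', hc'⟩ := ih (s + 1) (P - PowerSeries.coeff s P • B s) z (by
      rw [map_sub, h, hz, map_zsmul, ← Int.cast_smul_eq_zsmul ℂ, add_sub_cancel_left])
    refine ⟨fun i => if i = s then PowerSeries.coeff s P else c' i, ?_⟩
    rw [hIco, Finset.sum_insert hs]
    beta_reduce
    rw [if_pos rfl]
    have hcong : ∑ i ∈ Finset.Ico (s + 1) (s + 1 + n),
        (if i = s then PowerSeries.coeff s P else c' i) • B i =
        ∑ i ∈ Finset.Ico (s + 1) (s + 1 + n), c' i • B i := by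
      refine Finset.sum_congr rfl fun i hi => ?_
      have hi' : i ≠ s := by
        simp only [Finset.mem_Ico] at hi
        omega
      rw [if_neg hi']
    rw [hcong, ← hc']
    abel

/-- `δ = 1` iff `q ≡ 2 mod 3` (same term as `Fermat.Agent.S36.Reg.hasseDelta`). -/
def hDelta (q : ℕ) : ℕ := if q % 3 = 2 then 1 else 0

/-- `ε = 1` iff `q ≡ 3 mod 4` (same term as `Fermat.Agent.S36.Reg.hasseEps`). -/
def hEps (q : ℕ) : ℕ := if q % 4 = 3 then 1 else 0

/-- The integral `q`-expansion of `A • E_{q-1}` (where `B_{q-1} = A / (q M)`). -/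
def eisInt (A M : ℤ) (q : ℕ) : PowerSeries ℤ :=
  PowerSeries.mk fun m =>
    if m = 0 then A
    else -(2 * ((q - 1 : ℕ) : ℤ) * q * M) * (ArithmeticFunction.sigma (q - 1 - 1) m : ℤ)

theorem smul_qExpansion_E (q : ℕ) (hk : 3 ≤ q - 1) (hk2 : Even (q - 1)) (A M : ℤ) (hA : A ≠ 0)
    (hB : bernoulli (q - 1) * ((q : ℚ) * (M : ℚ)) = (A : ℚ)) :
    (A : ℂ) • qExpansion 1 (E hk) = (eisInt A M q).map (Int.castRingHom ℂ) := by
  ext m
  rw [PowerSeries.coeff_smul, E_qExpansion_coeff hk hk2, PowerSeries.coeff_map]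
  simp only [eisInt, PowerSeries.coeff_mk]
  split_ifs with h
  · simp
  · have hB' : ((bernoulli (q - 1) : ℚ) : ℂ) * ((q : ℂ) * (M : ℂ)) = (A : ℂ) := by
      exact_mod_cast hB
    have hA' : (A : ℂ) ≠ 0 := by exact_mod_cast hA
    have hb0 : ((bernoulli (q - 1) : ℚ) : ℂ) ≠ 0 := by
      intro h0
      rw [h0, zero_mul] at hB'
      exact hA' hB'.symm
    simp only [eq_intCast, smul_eq_mul]
    push_cast
    rw [← hB']
    field_simp

theorem coeff_eisInt_zero (q : ℕ) (A M : ℤ) : PowerSeries.coeff 0 (eisInt A M q) = A := by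
  simp [eisInt]

theorem dvd_coeff_eisInt (q : ℕ) (A M : ℤ) {m : ℕ} (hm : m ≠ 0) :
    (q : ℤ) ∣ PowerSeries.coeff m (eisInt A M q) := by
  simp only [eisInt, PowerSeries.coeff_mk, if_neg hm]
  exact ⟨-(2 * ((q - 1 : ℕ) : ℤ) * M) * (ArithmeticFunction.sigma (q - 1 - 1) m : ℤ), by ring⟩

/-- `A · E_{q-1}` is an integral combination of the triangular basis, and `≡ A mod q`. -/
theorem exists_int_comb (q : ℕ) (hq : q.Prime) (h5 : 5 ≤ q) (δ ε a : ℕ) (hδ : δ ≤ 1)
    (hε : ε ≤ 1) (hqa : q - 1 = 12 * a + 4 * δ + 6 * ε) :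
    ∃ (A : ℤ) (c : ℕ → ℤ) (P : PowerSeries ℤ), ¬ (q : ℤ) ∣ A ∧
      PowerSeries.coeff 0 P = A ∧ (∀ m : ℕ, m ≠ 0 → (q : ℤ) ∣ PowerSeries.coeff m P) ∧
      P = ∑ i ∈ Finset.range (a + 1), c i • bas δ ε a i := by
  obtain ⟨A, M, hA, hB⟩ := exists_bernoulli_mul_eq q hq (by omega)
  have hk : 3 ≤ q - 1 := by omega
  have hk2 : Even (q - 1) := by
    obtain ⟨m, hm⟩ := hq.odd_of_ne_two (by omega)
    exact ⟨m, by omega⟩
  have hA0 : A ≠ 0 := by
    rintro rfl
    exact hA (dvd_zero _)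
  have hmem : qExpansion 1 (E hk) ∈ spanBas δ ε a :=
    span_monoSet_le δ ε a hδ hε (q - 1) hqa (levelOne_qExpansion_mem_span _ (E hk))
  have hmem3 : (eisInt A M q).map (Int.castRingHom ℂ) ∈ spanBas δ ε a := by
    rw [← smul_qExpansion_E q hk hk2 A M hA0 hB]
    exact Submodule.smul_mem _ _ hmem
  obtain ⟨z0, hz0⟩ := (Submodule.mem_span_range_iff_exists_fun ℂ).mp hmem3
  have hz : (eisInt A M q).map (Int.castRingHom ℂ) =
      ∑ i ∈ Finset.Ico 0 (0 + (a + 1)),
        (fun i => if h : i < a + 1 then z0 ⟨i, h⟩ else 0) i •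
          (bas δ ε a i).map (Int.castRingHom ℂ) := by
    rw [← hz0, zero_add, ← Finset.range_eq_Ico, Finset.sum_range]
    refine Finset.sum_congr rfl fun i _ => ?_
    beta_reduce
    rw [dif_pos i.2]
    rfl
  obtain ⟨c, hc⟩ := tri_integral (bas δ ε a) (fun i j h => coeff_bas_of_lt δ ε a h)
    (fun i => coeff_bas_self δ ε a i) (a + 1) 0 (eisInt A M q) _ hz
  refine ⟨A, c, eisInt A M q, hA, coeff_eisInt_zero q A M,
    fun m hm => dvd_coeff_eisInt q A M hm, ?_⟩
  rw [hc, zero_add, ← Finset.range_eq_Ico]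

/-! ### Laurent series -/

section Laurent

variable (R : Type*) [CommRing R]

/-- `ℤ⟦q⟧ → R((q))`. -/
def toL : PowerSeries ℤ →+* LaurentSeries R :=
  (HahnSeries.ofPowerSeries ℤ R).comp (PowerSeries.map (Int.castRingHom R))

theorem toL_dF : toL R dF = Fermat.Agent.S28.deltaL R := by
  simp only [toL, dF, RingHom.comp_apply, map_mul, PowerSeries.map_X,
    HahnSeries.ofPowerSeries_X, Fermat.Agent.S28.deltaL]

theorem deltaL_mul_deltaInvL : Fermat.Agent.S28.deltaL R * Fermat.Agent.S28.deltaInvL R = 1 := by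
  simp only [Fermat.Agent.S28.deltaL, Fermat.Agent.S28.deltaInvL]
  rw [mul_mul_mul_comm, HahnSeries.single_mul_single, ← map_mul, ← map_mul,
    dedekindEtaUnit_mul_inv]
  simp

theorem jqModC_eq_toL : jqModC R = toL R qE4 ^ 3 * Fermat.Agent.S28.deltaInvL R := by
  rw [qE4_eq_eisenstein4]
  simp only [jqModC, jNum, toL, Fermat.Agent.S28.deltaInvL, RingHom.comp_apply, map_mul, map_pow]
  ring

theorem jqModC_sub : jqModC R - 1728 = toL R qE6 ^ 2 * Fermat.Agent.S28.deltaInvL R := by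
  have h := congrArg (toL R) qE6_sq
  rw [map_pow, map_sub, map_mul, map_pow, map_ofNat, toL_dF] at h
  rw [h, sub_mul, mul_assoc, deltaL_mul_deltaInvL, mul_one, ← jqModC_eq_toL]

theorem toL_bas (δ ε a i : ℕ) (hi : i ≤ a) :
    toL R (bas δ ε a i) =
      toL R qE4 ^ δ * toL R qE6 ^ ε * Fermat.Agent.S28.deltaL R ^ a * jqModC R ^ (a - i) := by
  obtain ⟨m, rfl⟩ : ∃ m, a = i + m := ⟨a - i, by omega⟩
  rw [Nat.add_sub_cancel_left, jqModC_eq_toL]
  have h1 : (Fermat.Agent.S28.deltaL R * Fermat.Agent.S28.deltaInvL R) ^ m = 1 := by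
    rw [deltaL_mul_deltaInvL, one_pow]
  have h2 : toL R qE4 ^ δ * toL R qE6 ^ ε * Fermat.Agent.S28.deltaL R ^ (i + m) *
      (toL R qE4 ^ 3 * Fermat.Agent.S28.deltaInvL R) ^ m =
      toL R qE4 ^ (δ + 3 * m) * toL R qE6 ^ ε * Fermat.Agent.S28.deltaL R ^ i *
        (Fermat.Agent.S28.deltaL R * Fermat.Agent.S28.deltaInvL R) ^ m := by
    ring
  rw [h2, h1, mul_one]
  simp only [bas, map_mul, map_pow, toL_dF]
  rw [Nat.add_sub_cancel_left]

end Laurent

/-- The final algebra. -/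
theorem hasse_algebra {L : Type*} [CommRing L] (e4 e6 D Di j F₀ : L) (δ ε a n : ℕ)
    (hD : D * Di = 1) (hj : j = e4 ^ 3 * Di) (hj' : j - 1728 = e6 ^ 2 * Di)
    (h1 : e4 ^ δ * e6 ^ ε * D ^ a * F₀ = 1) (hn : n = 12 * a + 4 * δ + 6 * ε) :
    Di ^ n = j ^ (4 * δ) * (j - 1728) ^ (6 * ε) * F₀ ^ 12 := by
  have h2 : e4 ^ δ * e6 ^ ε * F₀ = Di ^ a := by
    calc e4 ^ δ * e6 ^ ε * F₀ = e4 ^ δ * e6 ^ ε * F₀ * (D * Di) ^ a := by
          rw [hD, one_pow, mul_one]
      _ = (e4 ^ δ * e6 ^ ε * D ^ a * F₀) * Di ^ a := by ring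
      _ = Di ^ a := by rw [h1, one_mul]
  rw [hj', hj, hn]
  calc Di ^ (12 * a + 4 * δ + 6 * ε) = (Di ^ a) ^ 12 * Di ^ (4 * δ + 6 * ε) := by ring
    _ = (e4 ^ δ * e6 ^ ε * F₀) ^ 12 * Di ^ (4 * δ + 6 * ε) := by rw [h2]
    _ = (e4 ^ 3 * Di) ^ (4 * δ) * (e6 ^ 2 * Di) ^ (6 * ε) * F₀ ^ 12 := by ring

/-- HASSE over an arbitrary field of characteristic `q`. -/
theorem hasse_gen (q : ℕ) (hq : q.Prime) (h5 : 5 ≤ q) (k : Type*) [Field k] [CharP k q] :
    ∃ f : Polynomial k,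
      (Fermat.Agent.S28.deltaInvL k) ^ (q - 1) =
        (jqModC k) ^ (4 * hDelta q) * (jqModC k - 1728) ^ (6 * hEps q)
          * (Polynomial.aeval (jqModC k) f) ^ 12 := by
  have hδ : hDelta q ≤ 1 := by
    unfold hDelta
    split_ifs <;> omega
  have hε : hEps q ≤ 1 := by
    unfold hEps
    split_ifs <;> omega
  have h2 : q % 2 = 1 := by
    obtain ⟨m, hm⟩ := hq.odd_of_ne_two (by omega)
    omega
  have h3 : q % 3 ≠ 0 := by
    intro h
    have h3q : 3 ∣ q := Nat.dvd_of_mod_eq_zero h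
    have := (Nat.prime_dvd_prime_iff_eq Nat.prime_three hq).mp h3q
    omega
  obtain ⟨a, ha⟩ : ∃ a, q - 1 = 12 * a + 4 * hDelta q + 6 * hEps q := by
    refine ⟨(q - 1 - 4 * hDelta q - 6 * hEps q) / 12, ?_⟩
    unfold hDelta hEps
    split_ifs <;> omega
  obtain ⟨A, c, P, hA, hP0, hPm, hP2⟩ :=
    exists_int_comb q hq h5 (hDelta q) (hEps q) a hδ hε ha
  have hA0 : (A : k) ≠ 0 := by
    rw [Ne, CharP.intCast_eq_zero_iff k q]
    exact hA
  have hP1 : P.map (Int.castRingHom k) = PowerSeries.C (A : k) := by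
    ext m
    rw [PowerSeries.coeff_map, PowerSeries.coeff_C]
    split_ifs with h
    · subst h
      rw [hP0]
      rfl
    · rw [eq_intCast, CharP.intCast_eq_zero_iff k q]
      exact hPm m h
  set f : Polynomial k := ∑ i ∈ Finset.range (a + 1),
    Polynomial.C ((c i : k) / (A : k)) * Polynomial.X ^ (a - i) with hf
  refine ⟨f, ?_⟩
  refine hasse_algebra (toL k qE4) (toL k qE6) (Fermat.Agent.S28.deltaL k)
    (Fermat.Agent.S28.deltaInvL k) (jqModC k)
    (Polynomial.aeval (jqModC k) f) (hDelta q) (hEps q) a (q - 1)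
    (deltaL_mul_deltaInvL _) (jqModC_eq_toL _) (jqModC_sub _) ?_ ha
  -- the key identity
  have hΨP : toL k P = algebraMap k (LaurentSeries k) (A : k) := by
    have h1 : algebraMap k (PowerSeries k) (A : k) = PowerSeries.C (A : k) := by simp
    rw [toL, RingHom.comp_apply, hP1, HahnSeries.algebraMap_apply', h1]
  have hΨsum : toL k P = ∑ i ∈ Finset.range (a + 1),
      algebraMap k (LaurentSeries k) (c i : k) *
        toL k (bas (hDelta q) (hEps q) a i) := by
    rw [hP2, map_sum]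
    refine Finset.sum_congr rfl fun i _ => ?_
    rw [map_zsmul, zsmul_eq_mul, map_intCast]
  have haeval : Polynomial.aeval (jqModC k) f = ∑ i ∈ Finset.range (a + 1),
      algebraMap k (LaurentSeries k) ((c i : k) / (A : k)) * jqModC k ^ (a - i) := by
    rw [hf, map_sum]
    refine Finset.sum_congr rfl fun i _ => ?_
    rw [map_mul, Polynomial.aeval_C, map_pow, Polynomial.aeval_X]
  rw [haeval, Finset.mul_sum]
  have hterm : ∀ i ∈ Finset.range (a + 1),
      toL k qE4 ^ hDelta q * toL k qE6 ^ hEps q * Fermat.Agent.S28.deltaL k ^ a *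
        (algebraMap k (LaurentSeries k) ((c i : k) / (A : k)) * jqModC k ^ (a - i)) =
      algebraMap k (LaurentSeries k) ((A : k)⁻¹) *
        (algebraMap k (LaurentSeries k) (c i : k) *
          toL k (bas (hDelta q) (hEps q) a i)) := by
    intro i hi
    rw [toL_bas k _ _ a i (by simp only [Finset.mem_range] at hi; omega), div_eq_mul_inv,
      map_mul]
    ring
  rw [Finset.sum_congr rfl hterm, ← Finset.mul_sum, ← hΨsum, hΨP, ← map_mul,
    inv_mul_cancel₀ hA0, map_one]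

end

end Fermat.Agent.S36.Reg.H559
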